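import Mathlib
import Fermat.Prelude.Def_FLTPrelim_Ramification

set_option autoImplicit false

namespace Fermat.Agent.S05

open WeierstrassCurve

universe u

variable {L : Type u} [Field L]

/-- The `x`-coordinate of an affine point, with junk value `0` at the point at infinity. -/
def xOf {W : Affine L} : W.Point → L
  | .zero => 0
  | .some x _ _ => x

@[simp] lemma xOf_zero {W : Affine L} : xOf (0 : W.Point) = 0 := rfl

@[simp] lemma xOf_some {W : Affine L} {x y : L} (h : W.Nonsingular x y) :
    xOf (Affine.Point.some x y h) = x := rfl

end Fermat.Agent.S05
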