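import Mathlib
import Fermat.Agent.S05.Defs

set_option autoImplicit false

namespace Fermat.Agent.S05

open WeierstrassCurve

universe u

variable {L : Type u} [Field L] [DecidableEq L]

omit [DecidableEq L] in
/-- Solve the two Weierstrass equations for `a₄` and `a₆`. -/
lemma eq_a₄_a₆ {W : Affine L} {x₁ y₁ x₂ y₂ : L} (h₁ : W.Equation x₁ y₁) (h₂ : W.Equation x₂ y₂)
    (hx : x₁ ≠ x₂) :
    W.a₄ = ((y₁ ^ 2 - y₂ ^ 2) + W.a₁ * (x₁ * y₁ - x₂ * y₂) + W.a₃ * (y₁ - y₂)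
        - (x₁ ^ 3 - x₂ ^ 3) - W.a₂ * (x₁ ^ 2 - x₂ ^ 2)) / (x₁ - x₂) ∧
    W.a₆ = y₁ ^ 2 + W.a₁ * x₁ * y₁ + W.a₃ * y₁ - x₁ ^ 3 - W.a₂ * x₁ ^ 2
        - ((y₁ ^ 2 - y₂ ^ 2) + W.a₁ * (x₁ * y₁ - x₂ * y₂) + W.a₃ * (y₁ - y₂)
        - (x₁ ^ 3 - x₂ ^ 3) - W.a₂ * (x₁ ^ 2 - x₂ ^ 2)) / (x₁ - x₂) * x₁ := by
  rw [Affine.equation_iff] at h₁ h₂
  have hd : x₁ - x₂ ≠ 0 := sub_ne_zero.mpr hx
  have h4 : W.a₄ = ((y₁ ^ 2 - y₂ ^ 2) + W.a₁ * (x₁ * y₁ - x₂ * y₂) + W.a₃ * (y₁ - y₂)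
        - (x₁ ^ 3 - x₂ ^ 3) - W.a₂ * (x₁ ^ 2 - x₂ ^ 2)) / (x₁ - x₂) := by
    rw [eq_div_iff hd]
    linear_combination h₂ - h₁
  refine ⟨h4, ?_⟩
  rw [← h4]
  linear_combination -h₁

/-- The product and sum formulas for the `x`-coordinates of `P + Q` and `P - Q`. -/
theorem addsub_some {W : Affine L} {x₁ y₁ x₂ y₂ : L} (h₁ : W.Nonsingular x₁ y₁)
    (h₂ : W.Nonsingular x₂ y₂) (hx : x₁ ≠ x₂) :
    ∃ (xp yp xm ym : L) (hp : W.Nonsingular xp yp) (hm : W.Nonsingular xm ym),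
      Affine.Point.some _ _ h₁ + Affine.Point.some _ _ h₂ = Affine.Point.some _ _ hp ∧
      Affine.Point.some _ _ h₁ - Affine.Point.some _ _ h₂ = Affine.Point.some _ _ hm ∧
      xp * xm * (x₁ - x₂) ^ 2 =
        (x₁ * x₂) ^ 2 - W.b₄ * (x₁ * x₂) - W.b₆ * (x₁ + x₂) - W.b₈ ∧
      (xp + xm) * (x₁ - x₂) ^ 2 =
        2 * (x₁ + x₂) * (x₁ * x₂) + W.b₂ * (x₁ * x₂) + W.b₄ * (x₁ + x₂) + W.b₆ := by
  have hd : x₁ - x₂ ≠ 0 := sub_ne_zero.mpr hx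
  have h₂' : W.Nonsingular x₂ (W.negY x₂ y₂) := (Affine.nonsingular_neg ..).mpr h₂
  refine ⟨_, _, _, _, Affine.nonsingular_add h₁ h₂ fun hxy => hx hxy.left,
    Affine.nonsingular_add h₁ h₂' fun hxy => hx hxy.left, Affine.Point.add_of_X_ne hx, ?_, ?_, ?_⟩
  · rw [sub_eq_add_neg, Affine.Point.neg_some, Affine.Point.add_of_X_ne hx]
  · obtain ⟨h4, h6⟩ := eq_a₄_a₆ h₁.1 h₂.1 hx
    simp only [Affine.slope_of_X_ne hx, Affine.addX, Affine.negY, b₄, b₆, b₈]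
    generalize W.a₄ = a4 at *
    generalize W.a₆ = a6 at *
    subst h4 h6
    field_simp
    ring
  · obtain ⟨h4, h6⟩ := eq_a₄_a₆ h₁.1 h₂.1 hx
    simp only [Affine.slope_of_X_ne hx, Affine.addX, Affine.negY, b₂, b₄, b₆]
    generalize W.a₄ = a4 at *
    generalize W.a₆ = a6 at *
    subst h4 h6
    field_simp
    ring

omit [DecidableEq L] in
/-- On the curve, `4x³ + b₂x² + 2b₄x + b₆ = (2y + a₁x + a₃)²`. -/
lemma psi2_sq_eq {W : Affine L} {x y : L} (h : W.Equation x y) :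
    4 * x ^ 3 + W.b₂ * x ^ 2 + 2 * W.b₄ * x + W.b₆ = (y - W.negY x y) ^ 2 := by
  rw [Affine.equation_iff] at h
  simp only [Affine.negY, b₂, b₄, b₆]
  linear_combination (-4 : L) * h

/-- The duplication formula for the `x`-coordinate. -/
theorem dbl_some {W : Affine L} {x y : L} (h : W.Nonsingular x y) (hy : y ≠ W.negY x y) :
    ∃ (x' y' : L) (h' : W.Nonsingular x' y'),
      Affine.Point.some _ _ h + Affine.Point.some _ _ h = Affine.Point.some _ _ h' ∧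
      x' * (4 * x ^ 3 + W.b₂ * x ^ 2 + 2 * W.b₄ * x + W.b₆) =
        x ^ 4 - W.b₄ * x ^ 2 - 2 * W.b₆ * x - W.b₈ := by
  refine ⟨_, _, Affine.nonsingular_add h h fun hxy => hy hxy.right,
    Affine.Point.add_self_of_Y_ne hy, ?_⟩
  obtain ⟨d, hdd⟩ : ∃ d : L, d = 2 * y + W.a₁ * x + W.a₃ := ⟨_, rfl⟩
  have hd : d ≠ 0 := by
    intro h0
    apply hy
    simp only [Affine.negY]
    linear_combination h0 - hdd
  have hs : W.slope x x y y = (3 * x ^ 2 + 2 * W.a₂ * x + W.a₄ - W.a₁ * y) / d := by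
    rw [Affine.slope_of_Y_ne rfl hy, hdd]
    congr 1
    simp only [Affine.negY]
    ring
  have hpsi : 4 * x ^ 3 + W.b₂ * x ^ 2 + 2 * W.b₄ * x + W.b₆ = d ^ 2 := by
    rw [psi2_sq_eq h.1, hdd]
    simp only [Affine.negY]
    ring
  rw [hpsi, hs]
  have h6 : W.a₆ = y ^ 2 + W.a₁ * x * y + W.a₃ * y - x ^ 3 - W.a₂ * x ^ 2 - W.a₄ * x := by
    have := h.1
    rw [Affine.equation_iff] at this
    linear_combination -this
  have h3 : W.a₃ = d - 2 * y - W.a₁ * x := by linear_combination -hdd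
  simp only [Affine.addX, b₄, b₆, b₈]
  generalize W.a₆ = a6 at *
  generalize W.a₃ = a3 at *
  subst h6 h3
  field_simp
  ring

omit [DecidableEq L] in
lemma exists_some_of_ne_zero {W : Affine L} {P : W.Point} (hP : P ≠ 0) :
    ∃ (x y : L) (h : W.Nonsingular x y), P = Affine.Point.some x y h := by
  cases P with
  | zero => exact absurd rfl hP
  | some x y h => exact ⟨x, y, h, rfl⟩

omit [DecidableEq L] in
lemma xOf_neg {W : Affine L} (P : W.Point) : xOf (-P) = xOf P := by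
  cases P <;> rfl

omit [DecidableEq L] in
theorem xOf_eq_iff {W : Affine L} {P Q : W.Point} (hP : P ≠ 0) (hQ : Q ≠ 0) :
    xOf P = xOf Q ↔ P = Q ∨ P = -Q := by
  obtain ⟨x₁, y₁, h₁, rfl⟩ := exists_some_of_ne_zero hP
  obtain ⟨x₂, y₂, h₂, rfl⟩ := exists_some_of_ne_zero hQ
  exact Affine.Point.X_eq_iff

/-- Point-level version of the product and sum formulas. -/
theorem xOf_addsub {W : Affine L} {P Q : W.Point} (hP : P ≠ 0) (hQ : Q ≠ 0)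
    (hx : xOf P ≠ xOf Q) :
    P + Q ≠ 0 ∧ P - Q ≠ 0 ∧
    xOf (P + Q) * xOf (P - Q) * (xOf P - xOf Q) ^ 2 =
      (xOf P * xOf Q) ^ 2 - W.b₄ * (xOf P * xOf Q) - W.b₆ * (xOf P + xOf Q) - W.b₈ ∧
    (xOf (P + Q) + xOf (P - Q)) * (xOf P - xOf Q) ^ 2 =
      2 * (xOf P + xOf Q) * (xOf P * xOf Q) + W.b₂ * (xOf P * xOf Q)
        + W.b₄ * (xOf P + xOf Q) + W.b₆ := by
  obtain ⟨x₁, y₁, h₁, rfl⟩ := exists_some_of_ne_zero hP
  obtain ⟨x₂, y₂, h₂, rfl⟩ := exists_some_of_ne_zero hQ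
  simp only [xOf_some] at hx ⊢
  obtain ⟨xp, yp, xm, ym, hp, hm, e₁, e₂, e₃, e₄⟩ := addsub_some h₁ h₂ hx
  rw [e₁, e₂]
  exact ⟨Affine.Point.some_ne_zero hp, Affine.Point.some_ne_zero hm, e₃, e₄⟩

/-- Point-level duplication formula. -/
theorem xOf_dbl {W : Affine L} {P : W.Point} (hP : P ≠ 0) (h2 : P + P ≠ 0) :
    xOf (P + P) * (4 * xOf P ^ 3 + W.b₂ * xOf P ^ 2 + 2 * W.b₄ * xOf P + W.b₆) =
      xOf P ^ 4 - W.b₄ * xOf P ^ 2 - 2 * W.b₆ * xOf P - W.b₈ := by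
  obtain ⟨x, y, h, rfl⟩ := exists_some_of_ne_zero hP
  have hy : y ≠ W.negY x y := fun hy => h2 (Affine.Point.add_self_of_Y_eq hy)
  obtain ⟨x', y', h', e₁, e₂⟩ := dbl_some h hy
  rw [e₁]
  exact e₂

/-- If `P ≠ 0` and `P + P ≠ 0` then `4x³ + b₂x² + 2b₄x + b₆ ≠ 0`. -/
theorem psi2_ne_zero {W : Affine L} {P : W.Point} (hP : P ≠ 0) (h2 : P + P ≠ 0) :
    4 * xOf P ^ 3 + W.b₂ * xOf P ^ 2 + 2 * W.b₄ * xOf P + W.b₆ ≠ 0 := by
  obtain ⟨x, y, h, rfl⟩ := exists_some_of_ne_zero hP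
  have hy : y ≠ W.negY x y := fun hy => h2 (Affine.Point.add_self_of_Y_eq hy)
  rw [xOf_some, psi2_sq_eq h.1]
  exact pow_ne_zero 2 (sub_ne_zero.mpr hy)

end Fermat.Agent.S05
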