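import Mathlib
import Fermat.Prelude.Def_FLTPrelim_Ramification

set_option autoImplicit false

namespace Fermat.Agent.S05

open WeierstrassCurve

section Valuation

variable {L : Type*} [Field L] (A : ValuationSubring L)

lemma val_intCast_le_one (n : ℤ) : A.valuation (n : L) ≤ 1 :=
  (A.valuation_le_one_iff _).mpr (intCast_mem A n)

lemma val_intCast_lt_one {q : ℕ} (hqA : A.valuation (q : L) < 1) {n : ℤ} (hn : (q : ℤ) ∣ n) :
    A.valuation (n : L) < 1 := by
  obtain ⟨m, rfl⟩ := hn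
  push_cast
  rw [map_mul]
  calc A.valuation (q : L) * A.valuation (m : L) ≤ A.valuation (q : L) * 1 := by
        gcongr
        exact val_intCast_le_one A m
    _ < 1 := by rwa [mul_one]

lemma val_intCast_eq_one {q : ℕ} (hq : q.Prime) (hqA : A.valuation (q : L) < 1) {n : ℤ}
    (hn : ¬ (q : ℤ) ∣ n) : A.valuation (n : L) = 1 := by
  refine le_antisymm (val_intCast_le_one A n) (not_lt.mp fun hlt => ?_)
  have hcop : IsCoprime (q : ℤ) n :=
    (Nat.prime_iff_prime_int.mp hq).coprime_iff_not_dvd.mpr hn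
  obtain ⟨u, v, huv⟩ := hcop
  have h1 : (u : L) * (q : L) + (v : L) * (n : L) = 1 := by exact_mod_cast congrArg (Int.cast : ℤ → L) huv
  have h2 : A.valuation ((u : L) * (q : L)) < 1 := by
    rw [map_mul]
    calc A.valuation (u : L) * A.valuation (q : L) ≤ 1 * A.valuation (q : L) := by
          gcongr
          exact val_intCast_le_one A u
      _ < 1 := by rwa [one_mul]
  have h3 : A.valuation ((v : L) * (n : L)) < 1 := by
    rw [map_mul]
    calc A.valuation (v : L) * A.valuation (n : L) ≤ 1 * A.valuation (n : L) := by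
          gcongr
          exact val_intCast_le_one A v
      _ < 1 := by rwa [one_mul]
  have h4 := A.valuation.map_add_lt h2 h3
  rw [h1, map_one] at h4
  exact lt_irrefl _ h4

lemma val_natCast_eq_one {q : ℕ} (hq : q.Prime) (hqA : A.valuation (q : L) < 1) {n : ℕ}
    (hn : ¬ q ∣ n) : A.valuation (n : L) = 1 := by
  have := val_intCast_eq_one A hq hqA (n := (n : ℤ)) (by exact_mod_cast hn)
  exact_mod_cast this

end Valuation

section FreyInt

variable (P : FreyPackage)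

lemma not_dvd_ab {q : ℕ} (hq : q.Prime) (ha : (q : ℤ) ∣ P.a) (hb : (q : ℤ) ∣ P.b) : False := by
  have h := dvd_gcd ha hb
  rw [P.hgcdab] at h
  exact (Nat.prime_iff_prime_int.mp hq).not_isUnit (isUnit_of_dvd_one h)

lemma not_dvd_ac {q : ℕ} (hq : q.Prime) (ha : (q : ℤ) ∣ P.a) (hc : (q : ℤ) ∣ P.c) : False := by
  have h := dvd_gcd ha hc
  rw [P.hgcdac] at h
  exact (Nat.prime_iff_prime_int.mp hq).not_isUnit (isUnit_of_dvd_one h)

lemma not_dvd_bc {q : ℕ} (hq : q.Prime) (hb : (q : ℤ) ∣ P.b) (hc : (q : ℤ) ∣ P.c) : False := by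
  have h := dvd_gcd hb hc
  rw [P.hgcdbc] at h
  exact (Nat.prime_iff_prime_int.mp hq).not_isUnit (isUnit_of_dvd_one h)

lemma dvd_pow_p_iff {q : ℕ} (hq : q.Prime) (n : ℤ) : (q : ℤ) ∣ n ^ P.p ↔ (q : ℤ) ∣ n :=
  (Nat.prime_iff_prime_int.mp hq).dvd_pow_iff_dvd P.hp0

end FreyInt

section FreyCoeff

variable (P : FreyPackage)

lemma frey_a₁ : P.freyCurve.a₁ = 1 := rfl
lemma frey_a₃ : P.freyCurve.a₃ = 0 := rfl
lemma frey_a₆ : P.freyCurve.a₆ = 0 := rfl

lemma frey_a₂ : P.freyCurve.a₂ = ((P.b ^ P.p - 1 - P.a ^ P.p : ℤ) : ℚ) / 4 := by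
  simp [FreyPackage.freyCurve]

lemma frey_a₄ : P.freyCurve.a₄ = (-1 / 16 : ℚ) * ((P.a * P.b : ℤ) : ℚ) ^ P.p := by
  simp only [FreyPackage.freyCurve]
  push_cast
  ring

lemma frey_b₂ : P.freyCurve.b₂ = ((P.b ^ P.p - P.a ^ P.p : ℤ) : ℚ) := by
  simp only [b₂, FreyPackage.freyCurve]
  push_cast
  ring

lemma frey_Δ : P.freyCurve.Δ = (((P.a * P.b * P.c) ^ P.p : ℤ) : ℚ) ^ 2 / 256 := by
  have h : (P.c : ℚ) ^ P.p = (P.a : ℚ) ^ P.p + (P.b : ℚ) ^ P.p := by
    exact_mod_cast P.hFLT.symm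
  simp only [Δ, b₂, b₄, b₆, b₈, FreyPackage.freyCurve]
  push_cast
  rw [mul_pow, mul_pow, h]
  ring

/-- The translation moving the `2`-torsion point `(a^p/4, -a^p/8)` of the Frey curve to the
origin. -/
def freyTranslate : VariableChange ℚ :=
  ⟨1, ((P.a ^ P.p : ℤ) : ℚ) / 4, 0, -((P.a ^ P.p : ℤ) : ℚ) / 8⟩

lemma freyT_a₁ : (freyTranslate P • P.freyCurve).a₁ = 1 := by
  simp [variableChange_a₁, freyTranslate, FreyPackage.freyCurve]

lemma freyT_a₃ : (freyTranslate P • P.freyCurve).a₃ = 0 := by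
  simp only [variableChange_a₃, freyTranslate, FreyPackage.freyCurve]
  push_cast
  simp only [inv_one]
  ring

lemma freyT_a₆ : (freyTranslate P • P.freyCurve).a₆ = 0 := by
  simp only [variableChange_a₆, freyTranslate, FreyPackage.freyCurve]
  push_cast
  simp only [inv_one]
  ring

lemma freyT_a₂ : (freyTranslate P • P.freyCurve).a₂ =
    ((P.b ^ P.p - 1 + 2 * P.a ^ P.p : ℤ) : ℚ) / 4 := by
  simp only [variableChange_a₂, freyTranslate, FreyPackage.freyCurve]
  push_cast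
  simp only [inv_one]
  ring

lemma freyT_a₄ : (freyTranslate P • P.freyCurve).a₄ =
    (1 / 16 : ℚ) * ((P.a * P.c : ℤ) : ℚ) ^ P.p := by
  have h : (P.c : ℚ) ^ P.p = (P.a : ℚ) ^ P.p + (P.b : ℚ) ^ P.p := by
    exact_mod_cast P.hFLT.symm
  simp only [variableChange_a₄, freyTranslate, FreyPackage.freyCurve]
  push_cast
  simp only [inv_one]
  rw [mul_pow, h]
  ring

lemma freyT_b₂ : (freyTranslate P • P.freyCurve).b₂ =
    ((P.b ^ P.p + 2 * P.a ^ P.p : ℤ) : ℚ) := by
  rw [variableChange_b₂, frey_b₂]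
  simp only [freyTranslate]
  push_cast
  simp only [inv_one]
  ring

end FreyCoeff

end Fermat.Agent.S05
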