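import Mathlib
import Fermat.Agent.S05.Frey
import Fermat.Agent.S05.AddSub
import Fermat.Agent.S05.H60.M3
import Fermat.Agent.S05.H63.Reduction

set_option autoImplicit false

namespace Fermat.Agent.S05

open WeierstrassCurve

/-- The discriminant lies in the ideal generated by the two partial derivatives at any point of
the curve (explicit cofactors). -/
lemma Δ_eq_of_equation {R : Type*} [CommRing R] (W : Affine R) {x y : R} (h : W.Equation x y) :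
    W.Δ = (3 * x ^ 2 + 2 * W.a₂ * x + W.a₄ - W.a₁ * y) *
        ((W.a₁ ^ 2 + 4 * W.a₂ + 12 * x) ^ 2 * (3 * x ^ 2 + 2 * W.a₂ * x + W.a₄ - W.a₁ * y)
          - 64 * (3 * x ^ 2 + 2 * W.a₂ * x + W.a₄ - W.a₁ * y) ^ 2) +
      (2 * y + W.a₁ * x + W.a₃) *
        ((W.a₁ ^ 2 + 4 * W.a₂ + 12 * x) ^ 2 *
            (W.a₁ * (3 * x ^ 2 + 2 * W.a₂ * x + W.a₄ - W.a₁ * y)
              - (W.a₂ + 3 * x) * (2 * y + W.a₁ * x + W.a₃))
          - 8 * (12 * (3 * x ^ 2 + 2 * W.a₂ * x + W.a₄ - W.a₁ * y) ^ 2 * W.a₁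
              + 6 * (3 * x ^ 2 + 2 * W.a₂ * x + W.a₄ - W.a₁ * y) * W.a₁ ^ 2
                * (2 * y + W.a₁ * x + W.a₃)
              + W.a₁ ^ 3 * (2 * y + W.a₁ * x + W.a₃) ^ 2)
          - 27 * (2 * y + W.a₁ * x + W.a₃) ^ 3
          + 9 * (W.a₁ ^ 2 + 4 * W.a₂ + 12 * x)
              * (2 * (3 * x ^ 2 + 2 * W.a₂ * x + W.a₄ - W.a₁ * y)
                  + W.a₁ * (2 * y + W.a₁ * x + W.a₃)) * (2 * y + W.a₁ * x + W.a₃)) := by
  rw [Affine.equation_iff] at h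
  have h6 : W.a₆ = y ^ 2 + W.a₁ * x * y + W.a₃ * y - x ^ 3 - W.a₂ * x ^ 2 - W.a₄ * x := by
    linear_combination -h
  simp only [Δ, b₂, b₄, b₆, b₈]
  rw [h6]
  ring

section

variable {L : Type} [Field L]

/-- On a Weierstrass curve with coefficients in `A`, an integral `x`-coordinate forces an integral
`y`-coordinate. -/
lemma y_mem_of_x_mem (A : ValuationSubring L) (W : Affine L)
    (ha₁ : W.a₁ ∈ A) (ha₂ : W.a₂ ∈ A) (ha₃ : W.a₃ ∈ A) (ha₄ : W.a₄ ∈ A) (ha₆ : W.a₆ ∈ A)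
    {x y : L} (h : W.Equation x y) (hx : x ∈ A) : y ∈ A := by
  rw [Affine.equation_iff] at h
  by_contra hy
  have hy1 : 1 < A.valuation y := by
    rw [← not_le, A.valuation_le_one_iff]
    exact hy
  have hy0 : A.valuation y ≠ 0 := (lt_trans zero_lt_one hy1).ne'
  have e : y ^ 2 = (x ^ 3 + W.a₂ * x ^ 2 + W.a₄ * x + W.a₆) - (W.a₁ * x + W.a₃) * y := by
    linear_combination h
  have h1 : A.valuation (x ^ 3 + W.a₂ * x ^ 2 + W.a₄ * x + W.a₆) ≤ 1 := by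
    rw [A.valuation_le_one_iff]
    aesop
  have h2 : A.valuation (W.a₁ * x + W.a₃) ≤ 1 := by
    rw [A.valuation_le_one_iff]
    aesop
  have h3 : A.valuation (y ^ 2) ≤ A.valuation y := by
    rw [e]
    refine le_trans (A.valuation.map_sub _ _) (max_le (h1.trans hy1.le) ?_)
    rw [map_mul]
    calc A.valuation (W.a₁ * x + W.a₃) * A.valuation y ≤ 1 * A.valuation y := by gcongr
      _ = A.valuation y := one_mul _
  rw [map_pow, sq] at h3
  have h4 : A.valuation y ≤ 1 := by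
    have := mul_le_mul_of_nonneg_right h3 (zero_le (a := (A.valuation y)⁻¹))
    rwa [mul_assoc, mul_inv_cancel₀ hy0, mul_one] at this
  exact absurd h4 (not_le.mpr hy1)

/-- If the discriminant is a unit, every integral point has nonsingular reduction. -/
lemma nonsingular_reduction_of_Δ (A : ValuationSubring L) (W : Affine L)
    (ha₁ : W.a₁ ∈ A) (ha₂ : W.a₂ ∈ A) (ha₃ : W.a₃ ∈ A) (ha₄ : W.a₄ ∈ A) (ha₆ : W.a₆ ∈ A)
    (hΔ : A.valuation W.Δ = 1) {x y : L} (h : W.Equation x y) (hx : x ∈ A) :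
    A.valuation (W.polynomialX.evalEval x y) = 1 ∨
      A.valuation (W.polynomialY.evalEval x y) = 1 := by
  have hy : y ∈ A := y_mem_of_x_mem A W ha₁ ha₂ ha₃ ha₄ ha₆ h hx
  rw [Affine.evalEval_polynomialX, Affine.evalEval_polynomialY]
  have hX : W.a₁ * y - (3 * x ^ 2 + 2 * W.a₂ * x + W.a₄) ∈ A := by aesop
  have hY : 2 * y + W.a₁ * x + W.a₃ ∈ A := by aesop
  by_contra hcon
  rw [not_or] at hcon
  have hX1 : A.valuation (3 * x ^ 2 + 2 * W.a₂ * x + W.a₄ - W.a₁ * y) < 1 := by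
    rw [← neg_sub, Valuation.map_neg]
    exact lt_of_le_of_ne ((A.valuation_le_one_iff _).mpr hX) hcon.1
  have hY1 : A.valuation (2 * y + W.a₁ * x + W.a₃) < 1 :=
    lt_of_le_of_ne ((A.valuation_le_one_iff _).mpr hY) hcon.2
  have key := Δ_eq_of_equation W h
  obtain ⟨X', hX'⟩ : ∃ X' : L, X' = 3 * x ^ 2 + 2 * W.a₂ * x + W.a₄ - W.a₁ * y := ⟨_, rfl⟩
  obtain ⟨Y', hY'⟩ : ∃ Y' : L, Y' = 2 * y + W.a₁ * x + W.a₃ := ⟨_, rfl⟩
  obtain ⟨B, hB⟩ : ∃ B : L, B = W.a₁ ^ 2 + 4 * W.a₂ + 12 * x := ⟨_, rfl⟩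
  obtain ⟨a2', ha2'⟩ : ∃ a2' : L, a2' = W.a₂ + 3 * x := ⟨_, rfl⟩
  rw [← hX', ← hY', ← hB, ← ha2'] at key
  rw [← hX'] at hX1
  rw [← hY'] at hY1
  have mX : X' ∈ A := (A.valuation_le_one_iff _).mp hX1.le
  have mY : Y' ∈ A := (A.valuation_le_one_iff _).mp hY1.le
  have mB : B ∈ A := by rw [hB]; aesop
  have ma2' : a2' ∈ A := by rw [ha2']; aesop
  have hlt : A.valuation W.Δ < 1 := by
    rw [key]
    refine A.valuation.map_add_lt ?_ ?_
    · rw [map_mul]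
      refine mul_lt_one_of_lt_of_le hX1 ?_
      rw [A.valuation_le_one_iff]
      exact sub_mem (mul_mem (pow_mem mB 2) mX) (mul_mem (ofNat_mem A 64) (pow_mem mX 2))
    · rw [map_mul]
      refine mul_lt_one_of_lt_of_le hY1 ?_
      rw [A.valuation_le_one_iff]
      have m1 : W.a₁ * X' - a2' * Y' ∈ A := sub_mem (mul_mem ha₁ mX) (mul_mem ma2' mY)
      have m2 : 12 * X' ^ 2 * W.a₁ + 6 * X' * W.a₁ ^ 2 * Y' + W.a₁ ^ 3 * Y' ^ 2 ∈ A :=
        add_mem (add_mem (mul_mem (mul_mem (ofNat_mem A 12) (pow_mem mX 2)) ha₁)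
          (mul_mem (mul_mem (mul_mem (ofNat_mem A 6) mX) (pow_mem ha₁ 2)) mY))
          (mul_mem (pow_mem ha₁ 3) (pow_mem mY 2))
      have m3 : 2 * X' + W.a₁ * Y' ∈ A := add_mem (mul_mem (ofNat_mem A 2) mX) (mul_mem ha₁ mY)
      exact add_mem (sub_mem (sub_mem (mul_mem (pow_mem mB 2) m1) (mul_mem (ofNat_mem A 8) m2))
        (mul_mem (ofNat_mem A 27) (pow_mem mY 3)))
        (mul_mem (mul_mem (mul_mem (ofNat_mem A 9) mB) m3) mY)
  rw [hΔ] at hlt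
  exact lt_irrefl _ hlt

end

section GoodReduction

open WeierstrassCurve.Affine WeierstrassCurve.Affine.Point

variable {L : Type} [Field L] [DecidableEq L] [Algebra ℚ L]

/-- The Galois action commutes with multiplication by natural numbers. -/
lemma galois_smul_nsmul (W₀ : Affine ℚ) (σ : L ≃ₐ[ℚ] L) (n : ℕ) (P : (W₀⁄L).Point) :
    σ • (n • P) = n • (σ • P) :=
  map_nsmul (DistribSMul.toAddMonoidHom (W₀⁄L).Point σ) n P

/-- Good reduction: inertia acts trivially on `p`-torsion. -/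
theorem good_fixed (W₀ : Affine ℚ) (A : ValuationSubring L)
    (ha₁ : algebraMap ℚ L W₀.a₁ ∈ A) (ha₂ : algebraMap ℚ L W₀.a₂ ∈ A)
    (ha₃ : algebraMap ℚ L W₀.a₃ ∈ A) (ha₄ : algebraMap ℚ L W₀.a₄ ∈ A)
    (ha₆ : algebraMap ℚ L W₀.a₆ ∈ A)
    (hΔ : A.valuation (algebraMap ℚ L W₀.Δ) = 1)
    {p : ℕ} (hp : p.Prime) (hp2 : p ≠ 2) (hpA : A.valuation (p : L) = 1)
    (h2 : A.valuation (2 : L) = 1)
    (σ : L ≃ₐ[ℚ] L) (hσ : σ ∈ A.inertiaSubgroupIn ℚ)
    (P : (W₀⁄L).Point) (hP : p • P = 0) : σ • P = P := by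
  rcases eq_or_ne P 0 with rfl | hP0
  · exact smul_zero (A := (W₀⁄L).Point) σ
  · obtain ⟨x, y, h, rfl⟩ := exists_some_of_ne_zero hP0
    have hx : x ∈ A :=
      H60.torsion_integral (W := W₀⁄L) A ha₁ ha₂ ha₃ ha₄ ha₆ h2 hp hp2 hpA hP0 hP
    have hy : y ∈ A := y_mem_of_x_mem A (W₀⁄L) ha₁ ha₂ ha₃ ha₄ ha₆ h.1 hx
    have hΔ' : A.valuation (W₀⁄L).Δ = 1 := by
      rw [show (W₀⁄L).Δ = algebraMap ℚ L W₀.Δ from WeierstrassCurve.map_Δ _ _]
      exact hΔ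
    have hns := nonsingular_reduction_of_Δ A (W₀⁄L) ha₁ ha₂ ha₃ ha₄ ha₆ hΔ' h.1 hx
    rw [Affine.evalEval_polynomialX, Affine.evalEval_polynomialY] at hns
    have hns' : (W₀⁄L).a₁ * y - (3 * x ^ 2 + 2 * (W₀⁄L).a₂ * x + (W₀⁄L).a₄) ∉ A.nonunits ∨
        2 * y + (W₀⁄L).a₁ * x + (W₀⁄L).a₃ ∉ A.nonunits := by
      rcases hns with h1 | h1
      · exact Or.inl fun hmem => by
          rw [A.mem_nonunits_iff, h1] at hmem; exact lt_irrefl _ hmem
      · exact Or.inr fun hmem => by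
          rw [A.mem_nonunits_iff, h1] at hmem; exact lt_irrefl _ hmem
    rcases H63.smul_sub_eq_zero_or_X_not_mem (W' := W₀) A ha₁ ha₂ ha₃ ha₄ hσ h hx hy hns' with
      h0 | ⟨x'', y'', h'', hQ, hnot⟩
    · exact sub_eq_zero.mp h0
    · exfalso
      have hQ0 : σ • (Point.some x y h) - Point.some x y h ≠ 0 := by
        rw [hQ]; exact Point.some_ne_zero h''
      have hpQ : p • (σ • (Point.some x y h) - Point.some x y h) = 0 := by
        rw [smul_sub, ← galois_smul_nsmul, hP, smul_zero (A := (W₀⁄L).Point) σ, sub_zero]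
      have := H60.torsion_integral (W := W₀⁄L) A ha₁ ha₂ ha₃ ha₄ ha₆ h2 hp hp2 hpA hQ0 hpQ
      rw [hQ] at this
      exact hnot this

end GoodReduction

end Fermat.Agent.S05
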