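import Mathlib
import Fermat.Prelude.Def_FLTPrelim_Ramification

set_option autoImplicit false

namespace Fermat.Agent.S05

open scoped Pointwise

/-- Elements of the inertia subgroup of a valuation subring `A` of `L` preserve `A` and act
trivially modulo the maximal ideal. -/
theorem inertia_props {K L : Type*} [Field K] [Field L] [Algebra K L] (A : ValuationSubring L)
    {σ : L ≃ₐ[K] L} (hσ : σ ∈ A.inertiaSubgroupIn K) :
    (∀ a : L, a ∈ A → σ a ∈ A) ∧ (∀ a : L, a ∈ A → σ a - a ∈ A.nonunits) := by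
  obtain ⟨τ, hτ, rfl⟩ := hσ
  have hstab : ∀ a : L, a ∈ A → (τ : L ≃ₐ[K] L) a ∈ A := by
    intro a ha
    have h1 : (τ : L ≃ₐ[K] L) • a ∈ (τ : L ≃ₐ[K] L) • A :=
      ValuationSubring.smul_mem_pointwise_smul _ _ _ ha
    have h2 : (τ : L ≃ₐ[K] L) • A = A := τ.2
    rw [h2] at h1
    exact h1
  refine ⟨hstab, ?_⟩
  intro a ha
  have hker : ∀ r : IsLocalRing.ResidueField A, τ • r = r := by
    intro r
    have := RingEquiv.congr_fun (MonoidHom.mem_ker.mp hτ) r
    simpa using this
  have h3 := hker (IsLocalRing.residue A ⟨a, ha⟩)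
  rw [← IsLocalRing.ResidueField.residue_smul] at h3
  have h4 : τ • (⟨a, ha⟩ : A) - ⟨a, ha⟩ ∈ IsLocalRing.maximalIdeal A := by
    rw [← Ideal.Quotient.eq]
    exact h3
  rw [← ValuationSubring.coe_mem_nonunits_iff] at h4
  exact h4

end Fermat.Agent.S05
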