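import Mathlib
import Fermat.Agent.S05.Good
import Fermat.Agent.S05.Inertia
import Fermat.Agent.S05.H98.VarChangeGalois
import Fermat.Agent.S05.H9.MultCase

set_option autoImplicit false

namespace Fermat.Agent.S05

open WeierstrassCurve WeierstrassCurve.Affine WeierstrassCurve.Affine.Point

section

variable {L : Type} [Field L] [Algebra ℚ L] (A : ValuationSubring L)

lemma val_algebraMap_four (h2 : A.valuation (2 : L) = 1) : A.valuation (algebraMap ℚ L 4) = 1 := by
  rw [map_ofNat, show (4 : L) = 2 * 2 by norm_num, map_mul, h2, mul_one]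

lemma val_algebraMap_sixteen (h2 : A.valuation (2 : L) = 1) :
    A.valuation (algebraMap ℚ L 16) = 1 := by
  rw [map_ofNat, show (16 : L) = 2 ^ 4 by norm_num, map_pow, h2, one_pow]

lemma val_algebraMap_256 (h2 : A.valuation (2 : L) = 1) :
    A.valuation (algebraMap ℚ L 256) = 1 := by
  rw [map_ofNat, show (256 : L) = 2 ^ 8 by norm_num, map_pow, h2, one_pow]

end

section MultFixed

variable {L : Type} [Field L] [DecidableEq L] [Algebra ℚ L]

/-- The multiplicative case (module M5): in the normal form `a₃ = a₆ = 0`, `a₄ = u * r ^ p` with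
`u` a unit and `r` in the maximal ideal, `b₂` a unit, inertia fixes every `p`-torsion point.
Assembled from `H9.mult_fixed_of_M3` (multiplicative case modulo torsion integrality) and
`H60.torsion_integral`, `H60.InE1.sub` (torsion integrality, kernel of reduction). -/
theorem mult_fixed [IsAlgClosed L] (W₀ : Affine ℚ) (A : ValuationSubring L)
    (h₃ : W₀.a₃ = 0) (h₆ : W₀.a₆ = 0)
    (ha₁ : algebraMap ℚ L W₀.a₁ ∈ A) (ha₂ : algebraMap ℚ L W₀.a₂ ∈ A)
    (hb₂ : A.valuation (algebraMap ℚ L W₀.b₂) = 1)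
    {p : ℕ} (hp : p.Prime) (hp5 : 5 ≤ p) (hpA : A.valuation (p : L) = 1)
    (h2 : A.valuation (2 : L) = 1)
    (u r : ℚ) (hu : A.valuation (algebraMap ℚ L u) = 1) (hr : A.valuation (algebraMap ℚ L r) < 1)
    (hr0 : r ≠ 0) (ha₄ : W₀.a₄ = u * r ^ p)
    (σ : L ≃ₐ[ℚ] L) (hσ₂ : ∀ a ∈ A, σ a - a ∈ A.nonunits)
    (P : (W₀⁄L).Point) (hP : p • P = 0) : σ • P = P := by
  have hp2 : p ≠ 2 := by omega
  have ha₃ : (W₀⁄L).a₃ ∈ A := by
    show algebraMap ℚ L W₀.a₃ ∈ A
    rw [h₃, _root_.map_zero]; exact A.zero_mem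
  have ha₆ : (W₀⁄L).a₆ ∈ A := by
    show algebraMap ℚ L W₀.a₆ ∈ A
    rw [h₆, _root_.map_zero]; exact A.zero_mem
  have ha₄' : (W₀⁄L).a₄ ∈ A := by
    show algebraMap ℚ L W₀.a₄ ∈ A
    rw [ha₄, map_mul, map_pow, ← A.valuation_le_one_iff, map_mul, hu, one_mul, map_pow]
    exact pow_le_one' hr.le _
  have hr0' : algebraMap ℚ L r ≠ 0 := by
    rw [Ne, map_eq_zero]; exact hr0
  exact H9.mult_fixed_of_M3 (S := ℚ) W₀ A h₃ h₆ ha₁ ha₂ hb₂ hp hp5 h2 u r hu hr hr0' ha₄
    H9.exists_sq_add_eq σ hσ₂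
    (fun Q hQ0 hpQ => H60.torsion_integral (W := W₀⁄L) A ha₁ ha₂ ha₃ ha₄' ha₆ h2 hp hp2 hpA hQ0 hpQ)
    (fun P Q hP hQ => H60.InE1.sub (W := W₀⁄L) A ha₁ ha₂ ha₃ ha₄' ha₆ hP hQ) P hP

end MultFixed

/-- Inertia at an odd prime `q ≠ p` acts trivially on the `p`-torsion of the Frey curve. -/
theorem frey_fixed (P : FreyPackage) {q : ℕ} (hq : q.Prime) (hq2 : q ≠ 2) (hqp : q ≠ P.p)
    (A : ValuationSubring (AlgebraicClosure ℚ)) (hA : A.LiesOverPrime q)
    (σ : AlgebraicClosure ℚ ≃ₐ[ℚ] AlgebraicClosure ℚ) (hσ : σ ∈ A.inertiaSubgroupIn ℚ)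
    (Q : (P.freyCurve⁄(AlgebraicClosure ℚ)).Point) (hQ : P.p • Q = 0) : σ • Q = Q := by
  have hqA : A.valuation (q : AlgebraicClosure ℚ) < 1 := A.mem_nonunits_iff.mp hA
  have hσ₂ := (inertia_props A hσ).2
  have h2 : A.valuation (2 : AlgebraicClosure ℚ) = 1 := by
    have := val_natCast_eq_one A hq hqA (n := 2)
      (by rw [Nat.prime_dvd_prime_iff_eq hq Nat.prime_two]; exact hq2)
    simpa using this
  have hpA : A.valuation (P.p : AlgebraicClosure ℚ) = 1 :=
    val_natCast_eq_one A hq hqA (by rw [Nat.prime_dvd_prime_iff_eq hq P.pp]; exact hqp)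
  have hp2 : P.p ≠ 2 := by have := P.hp5; omega
  have h4 := val_algebraMap_four A h2
  have h16 := val_algebraMap_sixteen A h2
  have ha₁ : algebraMap ℚ (AlgebraicClosure ℚ) P.freyCurve.a₁ ∈ A := by
    rw [frey_a₁, map_one]; exact A.one_mem
  have ha₃ : algebraMap ℚ (AlgebraicClosure ℚ) P.freyCurve.a₃ ∈ A := by
    rw [frey_a₃, _root_.map_zero]; exact A.zero_mem
  have ha₆ : algebraMap ℚ (AlgebraicClosure ℚ) P.freyCurve.a₆ ∈ A := by
    rw [frey_a₆, _root_.map_zero]; exact A.zero_mem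
  have ha₂ : algebraMap ℚ (AlgebraicClosure ℚ) P.freyCurve.a₂ ∈ A := by
    rw [frey_a₂, ← A.valuation_le_one_iff, map_div₀, map_div₀, h4, div_one, map_intCast]
    exact val_intCast_le_one A _
  have ha₄ : algebraMap ℚ (AlgebraicClosure ℚ) P.freyCurve.a₄ ∈ A := by
    rw [frey_a₄, ← A.valuation_le_one_iff, map_mul, map_mul, map_div₀, map_div₀, h16, div_one,
      map_neg, map_one, Valuation.map_neg, map_one, one_mul, map_pow, map_pow, map_intCast]
    exact pow_le_one' (val_intCast_le_one A _) _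
  by_cases hab : (q : ℤ) ∣ P.a ∨ (q : ℤ) ∣ P.b
  · -- multiplicative reduction, node at the origin
    refine mult_fixed P.freyCurve A (frey_a₃ P) (frey_a₆ P) ha₁ ha₂ ?_ P.pp P.hp5 hpA h2
      (-1 / 16) ((P.a * P.b : ℤ) : ℚ) ?_ ?_ ?_ (frey_a₄ P) σ hσ₂ Q hQ
    · rw [frey_b₂, map_intCast]
      refine val_intCast_eq_one A hq hqA fun hdvd => ?_
      rcases hab with ha | hb
      · have hb : (q : ℤ) ∣ P.b ^ P.p := by
          have := dvd_add hdvd (dvd_pow ha P.hp0)
          simpa using this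
        exact not_dvd_ab P hq ha ((dvd_pow_p_iff P hq _).mp hb)
      · have ha : (q : ℤ) ∣ P.a ^ P.p := by
          have := dvd_sub (dvd_pow hb P.hp0) hdvd
          simpa using this
        exact not_dvd_ab P hq ((dvd_pow_p_iff P hq _).mp ha) hb
    · rw [map_div₀, map_div₀, h16, div_one, map_neg, map_one, Valuation.map_neg, map_one]
    · rw [map_intCast]
      refine val_intCast_lt_one A hqA ?_
      rcases hab with ha | hb
      · exact Dvd.dvd.mul_right ha _
      · exact Dvd.dvd.mul_left hb _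
    · exact_mod_cast mul_ne_zero P.ha0 P.hb0
  · rw [not_or] at hab
    by_cases hc : (q : ℤ) ∣ P.c
    · -- multiplicative reduction, node at `(a^p/4, -a^p/8)`: translate it to the origin
      apply (H98.baseChangePointEquiv (K := AlgebraicClosure ℚ) (freyTranslate P)
        P.freyCurve).injective
      rw [H98.baseChangePointEquiv_smul]
      refine mult_fixed (freyTranslate P • P.freyCurve) A (freyT_a₃ P) (freyT_a₆ P) ?_ ?_ ?_
        P.pp P.hp5 hpA h2 (1 / 16) ((P.a * P.c : ℤ) : ℚ) ?_ ?_ ?_ (freyT_a₄ P) σ hσ₂ _ ?_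
      · rw [freyT_a₁, map_one]; exact A.one_mem
      · rw [freyT_a₂, ← A.valuation_le_one_iff, map_div₀, map_div₀, h4, div_one, map_intCast]
        exact val_intCast_le_one A _
      · rw [freyT_b₂, map_intCast]
        refine val_intCast_eq_one A hq hqA fun hdvd => ?_
        have hcp : (q : ℤ) ∣ P.a ^ P.p + P.b ^ P.p := by
          rw [P.hFLT]; exact dvd_pow hc P.hp0
        have ha : (q : ℤ) ∣ P.a ^ P.p := by
          have := dvd_sub hdvd hcp
          have e : P.b ^ P.p + 2 * P.a ^ P.p - (P.a ^ P.p + P.b ^ P.p) = P.a ^ P.p := by ring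
          rwa [e] at this
        exact hab.1 ((dvd_pow_p_iff P hq _).mp ha)
      · rw [map_div₀, map_div₀, h16, div_one, map_one, map_one]
      · rw [map_intCast]
        exact val_intCast_lt_one A hqA (Dvd.dvd.mul_left hc _)
      · exact_mod_cast mul_ne_zero P.ha0 P.hc0
      · rw [← map_nsmul, hQ, _root_.map_zero]
    · -- good reduction
      refine good_fixed P.freyCurve A ha₁ ha₂ ha₃ ha₄ ha₆ ?_ P.pp hp2 hpA h2 σ hσ Q hQ
      rw [frey_Δ, map_div₀, map_div₀, val_algebraMap_256 A h2, div_one, map_pow, map_pow,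
        map_intCast]
      have : A.valuation (((P.a * P.b * P.c) ^ P.p : ℤ) : AlgebraicClosure ℚ) = 1 := by
        refine val_intCast_eq_one A hq hqA fun hdvd => ?_
        have h1 := (dvd_pow_p_iff P hq _).mp hdvd
        rcases (Nat.prime_iff_prime_int.mp hq).dvd_or_dvd h1 with h | h
        · rcases (Nat.prime_iff_prime_int.mp hq).dvd_or_dvd h with h | h
          · exact hab.1 h
          · exact hab.2 h
        · exact hc h
      rw [this, one_pow]

end Fermat.Agent.S05
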